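/-
S55 / block EXIST, layer C, node EXIST-C-3 : if `a` is not a local `p`-th power at the place below
`B`, the decomposition group of `B` in `G_K` contains an element whose image in `G_K ⧸ U'` has order
divisible by `p`.
-/
import Fermat.Agent.S55.Units.Cl.Places
import Fermat.Agent.S55.Dict.LocPow

set_option autoImplicit false

namespace Fermat.Agent.S55.Exist

open scoped Pointwise
open IsDedekindDomain NumberField
open Fermat.Agent.S55.Dict (fixG)
open Fermat.Agent.S55.Units (PlOff)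
open Fermat.Agent.S55.Units.Cl

variable {S : Finset Nat.Primes} {p : ℕ} {K : Type} [Field K] [NumberField K] [Algebra K Qb]

section Frob

/-- If `a` is not a local `p`-th power at the place below `B`, the decomposition group of `B` in
`G_K` contains an element whose image in `G_K ⧸ U'` has order divisible by `p`. -/
theorem exists_dec_of_not_mem_locPow (hp : p.Prime) (hp2 : p ≠ 2) {ζ : K}
    (hζ : IsPrimitiveRoot ζ p) (B : PlOff S) (a : Kˣ)
    (ha : a ∉ NIT.locPow K p (below S K B).1) (U' : Subgroup GQ)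
    (hU' : ∀ α : Qb, α ^ p = algebraMap K Qb (a : K) → ∀ g ∈ U', g α = α) :
    ∃ d ∈ fixG K, d • B = B ∧ ∀ i : ℕ, d ^ i ∈ U' → p ∣ i := by
  obtain ⟨α, hα⟩ := IsAlgClosed.exists_pow_nat_eq (algebraMap K Qb (a : K)) hp.pos
  have hα0 : α ≠ 0 := by
    rintro rfl
    rw [zero_pow hp.ne_zero] at hα
    exact a.ne_zero ((map_eq_zero (algebraMap K Qb)).1 hα.symm)
  rw [Dict.mem_locPow_iff hp hp2 B.char.2 B.liesOver_char (below_spec B) a] at ha
  have hnot : ¬ Dict.InHens K B.1 α := fun h => ha ⟨α, h, hα⟩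
  unfold Dict.InHens at hnot
  push_neg at hnot
  obtain ⟨d, hdB, hdK, hdα⟩ := hnot
  refine ⟨d, hdK, Subtype.ext (Dict.mem_Dec.1 hdB), ?_⟩
  -- `ξ = d α / α`
  set ξ : Qb := d α / α with hξ
  have hdα' : d α = ξ * α := by rw [hξ, div_mul_cancel₀ _ hα0]
  have hξp : ξ ^ p = 1 := by
    rw [hξ, div_pow, ← map_pow, hα, hdK (a : K), div_self]
    rw [← hα]
    exact pow_ne_zero _ hα0
  have hξ1 : ξ ≠ 1 := by
    intro h
    apply hdα
    rw [hdα', h, one_mul]
  have hζ' : IsPrimitiveRoot (algebraMap K Qb ζ) p :=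
    hζ.map_of_injective (algebraMap K Qb).injective
  have : NeZero p := ⟨hp.ne_zero⟩
  obtain ⟨j, -, hj⟩ := hζ'.eq_pow_of_pow_eq_one hξp
  have hdξ : d ξ = ξ := by
    rw [← hj, map_pow, hdK ζ]
  have hpow : ∀ i : ℕ, (d ^ i) α = ξ ^ i * α := by
    intro i
    induction i with
    | zero => simp
    | succ i ih =>
      rw [pow_succ', AlgEquiv.mul_apply, ih, map_mul, map_pow, hdξ, hdα', pow_succ]
      ring
  intro i hi
  have h1 : ξ ^ i = 1 := by
    have h2 := hU' α hα _ hi
    rw [hpow i] at h2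
    exact mul_right_cancel₀ hα0 (by rw [h2, one_mul])
  rw [← orderOf_eq_prime hξp hξ1 (hp := ⟨hp⟩)]
  exact orderOf_dvd_of_pow_eq_one h1

end Frob

end Fermat.Agent.S55.Exist
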