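/-
S55 / block EXIST, layer C, node EXIST-C-4 : `Units.Cl.dvd_divEquiv_push` for an arbitrary subgroup
`U' ≤ G_K` normalised by `G_K` (task 2071, helper193; proof copied from `Units/Cl/Push.lean`).
-/
import Fermat.Agent.S55.Units.Cl.Push
import Fermat.Agent.S55.Formal.Contract

set_option autoImplicit false

namespace Fermat.Agent.S55.Exist

open scoped Pointwise
open IsDedekindDomain NumberField
open Fermat.Agent.S55.Dict (fixG)
open Fermat.Agent.S55.Units (PlOff DivMod)
open Fermat.Agent.S55.Units.Cl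

variable {S : Finset Nat.Primes} {p : ℕ} {K : Type} [Field K] [NumberField K] [Algebra K Qb]

section PushDvd

/-- the corestriction of an invariant divisor, evaluated at the prime below `B` -/
theorem divEquiv_push_quotProj (hK : IsSField S K) {U' : Subgroup GQ} (hle : U' ≤ fixG K)
    [Finite (GQ ⧸ U')] (𝔄 : inv0 GQ (IndMod (GQ ⧸ U') (DivMod S))) (B : PlOff S) :
    divEquiv hK (inv0.map (IndMod.push (DivMod S) (quotProj hle)) 𝔄) (below S K B) =
      ∑ᶠ y : {y : GQ ⧸ U' // quotProj hle y = ((1 : GQ) : GQ ⧸ fixG K)},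
        (𝔄 : IndMod (GQ ⧸ U') (DivMod S)) y.1 B := by
  rw [divEquiv_apply, inv0.coe_map, IndMod.push_apply]
  exact (DivMod.evalHom B).map_finsum (Set.toFinite _)

/-- `Units.Cl.dvd_divEquiv_push` for an arbitrary subgroup `U' ≤ G_K` normalised by `G_K`. -/
theorem dvd_divEquiv_push_quotProj (hK : IsSField S K) {U' : Subgroup GQ} (hle : U' ≤ fixG K)
    [Finite (GQ ⧸ U')] (hn : ∀ g ∈ fixG K, ∀ u ∈ U', g * u * g⁻¹ ∈ U')
    (𝔄 : inv0 GQ (IndMod (GQ ⧸ U') (DivMod S))) (B : PlOff S) (p : ℕ)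
    (d : GQ) (hdK : d ∈ fixG K) (hdB : d • B = B) (hd : ∀ i : ℕ, d ^ i ∈ U' → p ∣ i) :
    (p : ℤ) ∣ divEquiv hK (inv0.map (IndMod.push (DivMod S) (quotProj hle)) 𝔄) (below S K B) := by
  classical
  rw [divEquiv_push_quotProj]
  have := Fintype.ofFinite {y : GQ ⧸ U' // quotProj hle y = ((1 : GQ) : GQ ⧸ fixG K)}
  rw [finsum_eq_sum_of_fintype]
  -- `fixG K` fixes the base point of `GQ ⧸ fixG K`
  have hbase : ∀ e ∈ fixG K, e • ((1 : GQ) : GQ ⧸ fixG K) = ((1 : GQ) : GQ ⧸ fixG K) := by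
    intro e he
    show ((e * 1 : GQ) : GQ ⧸ fixG K) = ((1 : GQ) : GQ ⧸ fixG K)
    rw [QuotientGroup.eq]
    simpa using he
  let τ : Equiv.Perm {y : GQ ⧸ U' // quotProj hle y = ((1 : GQ) : GQ ⧸ fixG K)} :=
    { toFun := fun y => ⟨d • y.1, by rw [map_smul, y.2, hbase d hdK]⟩
      invFun := fun y => ⟨d⁻¹ • y.1, by rw [map_smul, y.2, hbase _ ((fixG K).inv_mem hdK)]⟩
      left_inv := fun y => by simp
      right_inv := fun y => by simp }
  have hτ : ∀ (i : ℕ) (y : {y : GQ ⧸ U' // quotProj hle y = ((1 : GQ) : GQ ⧸ fixG K)}),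
      ((τ ^ i) y).1 = d ^ i • y.1 := by
    intro i
    induction i with
    | zero => intro y; simp
    | succ i ih =>
      intro y
      rw [pow_succ', Equiv.Perm.mul_apply, pow_succ', mul_smul, ← ih y]
      rfl
  refine dvd_sum_of_perm_invariant τ _ p ?_ ?_
  · intro y
    show (𝔄 : IndMod (GQ ⧸ U') (DivMod S)) (d • y.1) B =
      (𝔄 : IndMod (GQ ⧸ U') (DivMod S)) y.1 B
    have h1 := congrArg (fun F : IndMod (GQ ⧸ U') (DivMod S) => F (d • y.1) B) (𝔄.2 d)
    simp only [IndMod.smul_apply, DivMod.smul_apply, inv_smul_smul] at h1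
    have h2 : d⁻¹ • B = B := by rw [inv_smul_eq_iff, hdB]
    rw [h2] at h1
    exact h1.symm
  · rintro ⟨y, hy⟩ i hi
    have h1 : d ^ i • y = y := by
      have := hτ i ⟨y, hy⟩
      rw [hi] at this
      exact this.symm
    apply hd
    induction y using QuotientGroup.induction_on with
    | H g =>
      have hg : g ∈ fixG K := by
        have h2 : ((g : GQ) : GQ ⧸ fixG K) = ((1 : GQ) : GQ ⧸ fixG K) := hy
        rw [QuotientGroup.eq] at h2
        have := (fixG K).inv_mem h2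
        simpa using this
      have h3 : ((d ^ i * g : GQ) : GQ ⧸ U') = (g : GQ ⧸ U') := h1
      rw [QuotientGroup.eq] at h3
      have h4 := hn g hg _ (U'.inv_mem h3)
      have h5 : g * ((d ^ i * g)⁻¹ * g)⁻¹ * g⁻¹ = d ^ i := by group
      rw [h5] at h4
      exact h4

end PushDvd

end Fermat.Agent.S55.Exist
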