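/-
S55 / block EXIST, layer C, node EXIST-C-5 : the norm of every divisor of level `U'` is principal
modulo `p` (= the hypothesis `H` of `Units.push_Sha_eq_zero`), from `Exist.core`.
-/
import Fermat.Agent.S55.Exist.Core
import Fermat.Agent.S55.Exist.T5.Frob
import Fermat.Agent.S55.Exist.T5.PushDvd
import Fermat.Agent.S55.Units.Cl.LS
import Fermat.Agent.S55.NIT.Inst.Instance
import Fermat.Agent.S55.NIT.SI.SUnitIndex
import Fermat.Agent.S55.NIT.SI.CardTgt
import Fermat.Agent.S55.NIT.SI.Sep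

set_option autoImplicit false

namespace Fermat.Agent.S55.Exist

open scoped Pointwise
open IsDedekindDomain NumberField Fermat.Agent.S55.NIT.SI
open Fermat.Agent.S55.Dict (fixG)
open Fermat.Agent.S55.Units (InQS PlOff DivMod valG)
open Fermat.Agent.S55.Units.Cl

variable {S : Finset Nat.Primes} {p : ℕ} {K : Type} [Field K] [NumberField K]

/-- a divisor all of whose coefficients are divisible by `p` is `p` times a divisor -/
theorem exists_nsmul_eq_of_forall_dvd (T : Finset (Pl K)) (E : Dv K T)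
    (h : ∀ v, (p : ℤ) ∣ E v) : ∃ E' : Dv K T, E = p • E' := by
  refine ⟨E.mapRange (fun n => n / (p : ℤ)) (by simp), ?_⟩
  ext v
  rw [Finsupp.smul_apply, Finsupp.mapRange_apply, nsmul_eq_mul, Int.mul_ediv_cancel' (h v)]

variable [Algebra K Qb]

/-- The norm of every divisor of level `U'` is principal modulo `p`. -/
theorem exists_principal_mod_p [Fact p.Prime] (hp2 : p ≠ 2) (hpS : ExtCitation.pPrime p ∈ S)
    (hK : IsSField S K) {ζ : K} (hζ : IsPrimitiveRoot ζ p)
    (H : SymbData p K (NIT.Inst.locData Fact.out hp2 hζ))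
    {U' : Subgroup GQ} (hle : U' ≤ fixG K) [Finite (GQ ⧸ U')] [U'.Normal]
    (hU' : ∀ a ∈ VS p K (SK S K), ∀ α : Qb, α ^ p = algebraMap K Qb (a : K) → ∀ g ∈ U', g α = α)
    (𝔄 : IndMod (GQ ⧸ U') (DivMod S)) (h𝔄 : 𝔄 ∈ inv0 GQ (IndMod (GQ ⧸ U') (DivMod S))) :
    ∃ y ∈ inv0 GQ (IndMod (GQ ⧸ fixG K) (LSx S)),
      ∃ 𝔟 ∈ inv0 GQ (IndMod (GQ ⧸ fixG K) (DivMod S)),
        IndMod.push (DivMod S) (quotProj hle) 𝔄 =
          IndMod.mapCoeff (GQ ⧸ fixG K) (valG S) y + p • 𝔟 := by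
  have hp : p.Prime := Fact.out
  set D := NIT.Inst.locData hp hp2 hζ with hD
  set T := SK S K with hT
  have hpT : ∀ v : Pl K, Over p K v → v ∈ T := fun v hv => mem_SK.2 ⟨ExtCitation.pPrime p, hpS, hv⟩
  set 𝔄' : inv0 GQ (IndMod (GQ ⧸ U') (DivMod S)) := ⟨𝔄, h𝔄⟩ with h𝔄'
  set E : Dv K T := divEquiv hK (inv0.map (IndMod.push (DivMod S) (quotProj hle)) 𝔄') with hE
  have hsep : ∀ u : Kˣ, (∀ z : Kˣ, z ^ p ≠ u) → ∃ w : Pl K, ¬ Over p K w ∧ u ∈ Uv K w ∧
      ¬ ∃ y : Kˣ, w.valuation K ((u : K) - (y : K) ^ p) < 1 := by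
    intro u hu
    obtain ⟨w, -, h1, -, h2, -, h3⟩ := exists_place_sep hp hζ ∅ 1 u (fun i z h => hu z (by
      rw [h, one_pow, one_mul]))
    exact ⟨w, h1, h2, h3⟩
  obtain ⟨y, hy⟩ := core hp hp2 hζ D H (sUnitIndex hp hp2 hζ) T hpT (card_tgt_pow hp D T hpT) hsep E
    (by
      intro a ha v
      by_cases hav : a ∈ D.pow v.1
      · exact Or.inl hav
      · right
        obtain ⟨B, rfl⟩ := below_surjective (S := S) (K := K) v
        obtain ⟨d, hdK, hdB, hd⟩ := exists_dec_of_not_mem_locPow hp hp2 hζ B a hav U'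
          (hU' a (mem_VT.1 ha).1)
        exact dvd_divEquiv_push_quotProj hK hle
          (fun g _ u hu => Subgroup.Normal.conj_mem inferInstance u hu g) 𝔄' B p d hdK hdB hd)
  obtain ⟨E', hE'⟩ := exists_nsmul_eq_of_forall_dvd (p := p) T (E - divT K T (Additive.ofMul y))
    (fun v => by rw [Finsupp.sub_apply, divT_apply]; exact hy v)
  refine ⟨_, ((lsEquiv hK).symm (Additive.ofMul y)).2, _, ((divEquiv hK).symm E').2, ?_⟩
  have key : inv0.map (IndMod.push (DivMod S) (quotProj hle)) 𝔄' =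
      inv0.map (IndMod.mapCoeff (GQ ⧸ fixG K) (valG S)) ((lsEquiv hK).symm (Additive.ofMul y)) +
        p • (divEquiv hK).symm E' := by
    apply (divEquiv hK).injective
    rw [map_add, map_nsmul, divEquiv_valG, AddEquiv.apply_symm_apply, AddEquiv.apply_symm_apply,
      ← hE', ← hE]
    abel
  exact congrArg Subtype.val key

end Fermat.Agent.S55.Exist
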