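/-
S55 / block EXIST, Layer C, node EXIST-C-2 (helper133): the abstract core of `exists_level`.
A subgroup `V` of `Kˣ` with `V / (V ∩ Kˣᵖ)` finite, each of whose elements has its `p`-th roots
fixed by a member of the level system: one member fixes all the `p`-th roots.
-/
import Fermat.Agent.S55.Dict.Defs

set_option autoImplicit false

namespace Fermat.Agent.S55.Exist

open Fermat.Agent.S55.Dict (fixG)

/-- finite intersections in a level system -/
theorem LevelCore.exists_le_of_finite {G : Type} [Group G] (𝓝 : LevelSys G) {ι : Type*} [Finite ι]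
    (f : ι → Subgroup G) (hf : ∀ i, f i ∈ 𝓝.carrier) (N₀ : Subgroup G) (hN₀ : N₀ ∈ 𝓝.carrier) :
    ∃ N ∈ 𝓝.carrier, N ≤ N₀ ∧ ∀ i, N ≤ f i := by
  classical
  have key : ∀ s : Finset ι, ∃ N ∈ 𝓝.carrier, N ≤ N₀ ∧ ∀ i ∈ s, N ≤ f i := by
    intro s
    induction s using Finset.induction_on with
    | empty => exact ⟨N₀, hN₀, le_rfl, by simp⟩
    | insert a s _ ih =>
      obtain ⟨N, hN, hle, hs⟩ := ih
      obtain ⟨N', hN', hle'⟩ := 𝓝.directed N hN (f a) (hf a)
      refine ⟨N', hN', (hle'.trans inf_le_left).trans hle, ?_⟩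
      intro i hi
      rcases Finset.mem_insert.1 hi with rfl | hi
      · exact hle'.trans inf_le_right
      · exact (hle'.trans inf_le_left).trans (hs i hi)
  cases nonempty_fintype ι
  obtain ⟨N, hN, hle, hs⟩ := key Finset.univ
  exact ⟨N, hN, hle, fun i => hs i (Finset.mem_univ i)⟩

/-- **Abstract core of `exists_level`.** -/
theorem LevelCore.exists_level {K : Type} [Field K] [Algebra K Qb] (𝓝 : LevelSys GQ) {p : ℕ}
    (hp : p ≠ 0) (V : Subgroup Kˣ)
    (hfin : ((powMonoidHom p : Kˣ →* Kˣ).range).relIndex V ≠ 0)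
    (hK : 𝓝.IsOpen (fixG K)) {ζ : K} (hζ : IsPrimitiveRoot ζ p)
    (hroot : ∀ a ∈ V, ∀ α : Qb, α ^ p = algebraMap K Qb ((a : Kˣ) : K) →
      ∃ N ∈ 𝓝.carrier, ∀ g ∈ N, g α = α) :
    ∃ U' ∈ 𝓝.carrier, U' ≤ fixG K ∧
      ∀ a ∈ V, ∀ α : Qb, α ^ p = algebraMap K Qb ((a : Kˣ) : K) → ∀ g ∈ U', g α = α := by
  classical
  have : NeZero p := ⟨hp⟩
  set P : Subgroup V := ((powMonoidHom p : Kˣ →* Kˣ).range).subgroupOf V with hP
  have : P.FiniteIndex := ⟨hfin⟩
  have : Finite (V ⧸ P) := Subgroup.finite_quotient_of_finiteIndex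
  -- representatives and their roots
  have hex : ∀ x : V ⧸ P, ∃ α : Qb, α ^ p = algebraMap K Qb (((Quotient.out x : V) : Kˣ) : K) :=
    fun x => IsAlgClosed.exists_pow_nat_eq _ (Nat.pos_of_ne_zero hp)
  choose αr hαr using hex
  have hN : ∀ x : V ⧸ P, ∃ N ∈ 𝓝.carrier, ∀ g ∈ N, g (αr x) = αr x :=
    fun x => hroot _ (Quotient.out x : V).2 _ (hαr x)
  choose Nr hNr hNfix using hN
  obtain ⟨N₀, hN₀, hN₀le⟩ := hK
  obtain ⟨U', hU', hle₀, hle⟩ := LevelCore.exists_le_of_finite 𝓝 Nr hNr N₀ hN₀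
  refine ⟨U', hU', hle₀.trans hN₀le, ?_⟩
  intro a ha α hα g hg
  have hgK : ∀ x : K, g (algebraMap K Qb x) = algebraMap K Qb x := (hle₀.trans hN₀le) hg
  set x : V ⧸ P := QuotientGroup.mk ⟨a, ha⟩ with hx
  have hmem : (Quotient.out x : V)⁻¹ * ⟨a, ha⟩ ∈ P := by
    rw [← QuotientGroup.eq, QuotientGroup.out_eq']
  obtain ⟨c, hc⟩ := Subgroup.mem_subgroupOf.1 hmem
  have hc' : (a : K) = (((Quotient.out x : V) : Kˣ) : K) * (c : K) ^ p := by
    have h1 : c ^ p = ((Quotient.out x : V) : Kˣ)⁻¹ * a := by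
      simpa using hc
    have h2 : a = ((Quotient.out x : V) : Kˣ) * c ^ p := by
      rw [h1, mul_inv_cancel_left]
    calc (a : K) = ((((Quotient.out x : V) : Kˣ) * c ^ p : Kˣ) : K) := by rw [← h2]
      _ = _ := by push_cast; rfl
  set β : Qb := αr x * algebraMap K Qb (c : K) with hβ
  have hβp : β ^ p = algebraMap K Qb (a : K) := by
    rw [hβ, mul_pow, hαr x, hc', map_mul, map_pow]
  have ha0 : algebraMap K Qb (a : K) ≠ 0 := by
    rw [Ne, map_eq_zero]
    exact a.ne_zero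
  have hβ0 : β ≠ 0 := by
    intro h
    rw [h, zero_pow hp] at hβp
    exact ha0 hβp.symm
  have h1 : (α / β) ^ p = 1 := by
    rw [div_pow, hα, hβp, div_self ha0]
  have hζ' : IsPrimitiveRoot (algebraMap K Qb ζ) p :=
    hζ.map_of_injective (algebraMap K Qb).injective
  obtain ⟨i, _, hi⟩ := hζ'.eq_pow_of_pow_eq_one h1
  have hα' : α = algebraMap K Qb ζ ^ i * (αr x * algebraMap K Qb (c : K)) := by
    rw [hi, ← hβ, div_mul_cancel₀ _ hβ0]
  rw [hα', map_mul, map_mul, map_pow, hgK, hgK, hNfix x g (hle x hg)]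

end Fermat.Agent.S55.Exist
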