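/-
S55 / block EXIST, layer C, node EXIST-C-1 : a `p`-th root of an element of `V^S(K)` lies in `ℚ_S`,
hence is fixed by a level of `lvlS S`.
-/
import Fermat.Agent.S55.Exist.Defs
import Fermat.Agent.S55.Exist.OrdBasic
import Fermat.Agent.S55.Units.Cl.Ord
import Fermat.Agent.S55.Units.Cl.Places
import Fermat.Agent.S55.Units.Roots
import Fermat.Agent.S55.Units.Mods

set_option autoImplicit false

namespace Fermat.Agent.S55.Exist

open scoped Pointwise
open IsDedekindDomain NumberField
open Fermat.Agent.S55.Dict (fixG Below)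
open Fermat.Agent.S55.NIT (Pl)
open Fermat.Agent.S55.Units (InQS PlOff DivMod valG)
open Fermat.Agent.S55.Units.Cl

variable {S : Finset Nat.Primes} {p : ℕ} {K : Type} [Field K] [NumberField K] [Algebra K Qb]

/-- a `p`-th root of an element of `V^S` generates an extension unramified outside `S` -/
theorem inQS_of_pow_eq_of_mem_VS [Fact p.Prime] (hpS : ExtCitation.pPrime p ∈ S)
    (hK : IsSField S K) (a : Kˣ) (ha : a ∈ VS p K (SK S K)) (α : Qb)
    (hα : α ^ p = algebraMap K Qb (a : K)) : InQS S α := by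
  have hp0 : p ≠ 0 := (Fact.out : p.Prime).ne_zero
  refine Units.inQS_of_pow (ExtCitation.pPrime p) hpS 1 α ?_ ?_
  · rw [pow_one]
    change InQS S (α ^ p)
    rw [hα]
    exact inQS_of_isSField hK _
  · intro A
    have hv : (below S K A).1 ∉ SK S K := (below S K A).2
    have hB : Below K (below S K A).1 A.1 := below_spec A
    obtain ⟨c, hc⟩ := ha _ hv
    set v : Pl K := (below S K A).1
    have hu : v.valuation K ((a / c ^ p : Kˣ) : K) = 1 := by
      rw [Units.val_div_eq_div_val, map_div₀, Units.val_pow_eq_pow_val, map_pow, hc]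
      exact div_self (pow_ne_zero _ (by simp))
    have h1 := ord_valuation_eq_one hB (a / c ^ p) ((Exist.ord_eq_zero_iff v _).mpr hu)
    have hc0 : algebraMap K Qb (c : K) ≠ 0 := by
      rw [Ne, map_eq_zero]
      exact c.ne_zero
    have h2 : A.1.valuation α ^ p = A.1.valuation (algebraMap K Qb (c : K)) ^ p := by
      rw [← map_pow, hα]
      have e : (a : K) = ((a / c ^ p : Kˣ) : K) * (c : K) ^ p := by
        rw [← Units.val_pow_eq_pow_val, ← Units.val_mul, div_mul_cancel]
      rw [e, map_mul, map_mul, h1, one_mul, map_pow, map_pow]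
    have h3 : A.1.valuation α = A.1.valuation (algebraMap K Qb (c : K)) :=
      (pow_left_inj₀ zero_le zero_le hp0).1 h2
    refine ⟨A.ord (algebraMap K Qb (c : K)), ?_⟩
    have h4 := A.hasOrd_ord hc0 (inQS_of_isSField hK (c : K))
    unfold Units.HasOrd at h4 ⊢
    rw [h3, h4]

/-- ... hence it is fixed by an open subgroup. -/
theorem exists_level_fixing_root [Fact p.Prime] (hpS : ExtCitation.pPrime p ∈ S)
    (hK : IsSField S K) (a : Kˣ) (ha : a ∈ VS p K (SK S K)) (α : Qb)
    (hα : α ^ p = algebraMap K Qb (a : K)) : ∃ N ∈ (lvlS S).carrier, ∀ g ∈ N, g α = α := by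
  have hp0 : p ≠ 0 := (Fact.out : p.Prime).ne_zero
  have hQ := inQS_of_pow_eq_of_mem_VS hpS hK a ha α hα
  have hα0 : α ≠ 0 := by
    rintro rfl
    rw [zero_pow hp0] at hα
    have : (a : K) = 0 := by
      have h := hα.symm
      rwa [map_eq_zero] at h
    exact a.ne_zero this
  obtain ⟨N, hN, h⟩ := (Units.mem_LSsub_iff (S := S) (Additive.ofMul (Units.mk0 α hα0) : Kx)).2 hQ
  refine ⟨N, hN, fun g hg => ?_⟩
  have := congrArg Kx.val (h g hg)
  exact this

end Fermat.Agent.S55.Exist
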