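/-
S55 / block EXIST, Layer C, node EXIST-C-2 (helper133): the level `U'` fixing `K(V^S ^ (1/p))`.
-/
import Fermat.Agent.S55.Exist.T5.Roots
import Fermat.Agent.S55.Exist.T5.LevelCore
import Fermat.Agent.S55.Exist.FiniteVS
import Fermat.Agent.S55.NIT.SI.SUnitIndex

set_option autoImplicit false

namespace Fermat.Agent.S55.Exist

open scoped Pointwise
open IsDedekindDomain NumberField Fermat.Agent.S55.NIT.SI
open Fermat.Agent.S55.Dict (fixG)
open Fermat.Agent.S55.Units.Cl

variable {S : Finset Nat.Primes} {p : ℕ} {K : Type} [Field K] [NumberField K] [Algebra K Qb]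

/-- The level `U'` : it fixes `K(V^S ^ (1/p))`. -/
theorem exists_level [Fact p.Prime] (hp2 : p ≠ 2) (hpS : ExtCitation.pPrime p ∈ S)
    (hK : IsSField S K) {ζ : K} (hζ : IsPrimitiveRoot ζ p) :
    ∃ U' ∈ (lvlS S).carrier, U' ≤ fixG K ∧
      ∀ a ∈ VS p K (SK S K), ∀ α : Qb, α ^ p = algebraMap K Qb (a : K) → ∀ g ∈ U', g α = α :=
  LevelCore.exists_level (lvlS S) (Fact.out : p.Prime).ne_zero (VS p K (SK S K))
    (relIndex_pow_VS_ne_zero Fact.out (sUnitIndex Fact.out hp2 hζ) (SK S K)) hK hζ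
    (fun a ha α hα => exists_level_fixing_root hpS hK a ha α hα)

end Fermat.Agent.S55.Exist
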