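/-
S55 / block EXIST, layer C, node EXIST-C-6 : (T5) from the local symbols (layer B), LOC and BR.
-/
import Fermat.Agent.S55.Exist.T5.DivStep
import Fermat.Agent.S55.Exist.T5.Level
import Fermat.Agent.S55.Units.Cl.Mu
import Fermat.Agent.S55.Units.Cl.Field
import Fermat.Agent.S55.Units.U6Exist

set_option autoImplicit false

namespace Fermat.Agent.S55.Exist

open scoped Pointwise
open IsDedekindDomain NumberField Fermat.Agent.S55.NIT.SI
open Fermat.Agent.S55.Dict (fixG)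
open Fermat.Agent.S55.Units.Cl

variable {S : Finset Nat.Primes} {p : ℕ}

/-- **(T5)**, from the local symbols (Layer B), LOC and BR. -/
theorem T5_of_symbData [Fact p.Prime] (hp2 : p ≠ 2) (hpS : ExtCitation.pPrime p ∈ S)
    {L : ∀ q, LocPkg p q} (B : BrPkg p L)
    (H : ∀ (K : Type) [Field K] [NumberField K] [Algebra K Qb] (ζ : K) (hζ : IsPrimitiveRoot ζ p),
      Nonempty (SymbData p K (NIT.Inst.locData Fact.out hp2 hζ))) :
    ∀ U ∈ (lvlS S).carrier, ActsTrivially U (Mu p) →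
    ∃ U' ∈ (lvlS S).carrier, ∃ h : U' ≤ U, ∃ _ : Finite (GQ ⧸ U'),
      ∀ x ∈ Sha S (IndMod (GQ ⧸ U') (Mu p)) 2,
        Hsm.map (IndMod.push (Mu p) (quotProj h)) 2 x = 0 := by
  intro U hU hμ
  obtain ⟨K, _, _, _, rfl, hK⟩ := exists_sField_of_isOpen S U ⟨U, hU, le_rfl⟩
  obtain ⟨ζ, hζ⟩ := exists_primitiveRoot (K := K) (Fact.out : p.Prime) hμ
  obtain ⟨H'⟩ := H K ζ hζ
  obtain ⟨U', hU', hle, hroot⟩ := exists_level hp2 hpS hK hζ
  have hfin : Finite (GQ ⧸ U') := by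
    have := (lvlS S).finiteIndex U' hU'
    exact Subgroup.finite_quotient_of_finiteIndex
  have hfinK : Finite (GQ ⧸ fixG K) := by
    have := (lvlS S).finiteIndex _ hU
    exact Subgroup.finite_quotient_of_finiteIndex
  have hnorm : U'.Normal := (lvlS S).normal U' hU'
  refine ⟨U', hU', hle, hfin, fun x hx => ?_⟩
  exact Units.push_Sha_eq_zero hpS B ⟨U', hU', le_rfl⟩ hle
    (fun 𝔄 h𝔄 => exists_principal_mod_p hp2 hpS hK hζ H' hle hroot 𝔄 h𝔄) x hx

end Fermat.Agent.S55.Exist
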